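import Mathlib
import Fermat.Prelude.Def_FLTPrelim_FreyPackage
import Fermat.Prelude.Def_FLTPrelim_GaloisRep
import Fermat.Prelude.Def_FLTPrelim_Modularity
import Fermat.Prelude.Def_FLTPrelim_ModularRep
import Fermat.Prelude.Def_FLTPrelim_Ramification
import Fermat.Prelude.Def_FLTPrelim_CofixedLine
import Fermat.Prelude.Def_FreyPackage_IsConductorLevel

/-!
Wiring for S45 (helper45): S45 follows from S05, S06, S43, S44 (stated here as explicit
hypotheses, so that this file has no dependency on unproved statements).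
-/

set_option autoImplicit false
open WeierstrassCurve WeierstrassCurve.Affine WeierstrassCurve.Affine.Point
open CuspForm ModularFormClass UpperHalfPlane

namespace Fermat.Agent.S45.helper45

/-- Restrict a cusp form to a smaller subgroup (same underlying function). -/
noncomputable def cuspFormRestrict {Γ Γ' : Subgroup (GL (Fin 2) ℝ)} (h : Γ' ≤ Γ) {k : ℤ}
    (f : CuspForm Γ k) : CuspForm Γ' k where
  toFun := f
  slash_action_eq' γ hγ := SlashInvariantFormClass.slash_action_eq f γ (h hγ)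
  holo' := CuspFormClass.holo f
  zero_at_cusps' hc := CuspFormClass.zero_at_cusps f (hc.mono h)

theorem cuspFormRestrict_ne_zero {Γ Γ' : Subgroup (GL (Fin 2) ℝ)} (h : Γ' ≤ Γ) {k : ℤ}
    (f : CuspForm Γ k) (hf : f ≠ 0) : cuspFormRestrict h f ≠ 0 := by
  intro h0
  apply hf
  ext z
  have := congrArg (fun g : CuspForm Γ' k => g z) h0
  exact this

theorem gamma0_two_le_gamma0_one :
    ((CongruenceSubgroup.Gamma0 2 : Subgroup (Matrix.SpecialLinearGroup (Fin 2) ℤ)) :
        Subgroup (GL (Fin 2) ℝ)) ≤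
      ((CongruenceSubgroup.Gamma0 1 : Subgroup (Matrix.SpecialLinearGroup (Fin 2) ℤ)) :
        Subgroup (GL (Fin 2) ℝ)) := by
  apply Subgroup.map_mono
  intro g _
  rw [CongruenceSubgroup.Gamma0_mem]
  exact Subsingleton.elim _ _

/-- A conductor level without odd prime factors is `1` or `2`. -/
theorem eq_one_or_two_of_no_odd_prime {P : FreyPackage} {N : ℕ} (hN : P.IsConductorLevel N)
    (h : ∀ q : ℕ, q.Prime → q ∣ N → q = 2) : N = 1 ∨ N = 2 := by
  have hpos := hN.pos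
  have h4 := hN.not_four_dvd
  by_cases h1 : N = 1
  · exact Or.inl h1
  right
  -- N is a power of two
  have hpow : ∃ k, N = 2 ^ k := by
    have := (Nat.eq_prime_pow_of_unique_prime_dvd (n := N) (p := 2) hpos.ne'
      (fun {d} hd hdN => h d hd hdN))
    exact ⟨_, this⟩
  obtain ⟨k, rfl⟩ := hpow
  rcases k with _ | _ | k
  · simp at h1
  · simp
  · exfalso
    apply h4
    exact ⟨2 ^ k, by ring⟩

/-- Descent: from any conductor level down to level `1` or `2`. -/
theorem descend (P : FreyPackage)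
    (hirr : GaloisRepIsIrreducible (K := AlgebraicClosure ℚ) ℚ P.freyCurve P.p)
    (h05 : ∀ {q : ℕ}, q.Prime → q ≠ 2 → q ≠ P.p → P.GaloisRepUnramifiedAt q)
    (h43 : ∀ {N q : ℕ}, P.IsConductorLevel N → q.Prime → q ≠ 2 → q ≠ P.p → q ∣ N →
      GaloisRepIsIrreducible (K := AlgebraicClosure ℚ) ℚ P.freyCurve P.p →
      P.ModularRepOfLevel N → P.GaloisRepUnramifiedAt q →
      ∃ M : ℕ, M ∣ N ∧ ¬ q ∣ M ∧ P.ModularRepOfLevel M)
    (h44 : ∀ {N : ℕ}, P.IsConductorLevel N → P.p ∣ N →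
      GaloisRepIsIrreducible (K := AlgebraicClosure ℚ) ℚ P.freyCurve P.p →
      P.ModularRepOfLevel N → ∃ M : ℕ, M ∣ N ∧ ¬ P.p ∣ M ∧ P.ModularRepOfLevel M) :
    ∀ N : ℕ, P.IsConductorLevel N → P.ModularRepOfLevel N →
      ∃ M : ℕ, (M = 1 ∨ M = 2) ∧ P.ModularRepOfLevel M := by
  intro N
  induction N using Nat.strong_induction_on with
  | _ N ih =>
    intro hN hmod
    by_cases hodd : ∀ q : ℕ, q.Prime → q ∣ N → q = 2
    · exact ⟨N, eq_one_or_two_of_no_odd_prime hN hodd, hmod⟩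
    · push Not at hodd
      obtain ⟨q, hq, hqN, hq2⟩ := hodd
      have key : ∃ M : ℕ, M ∣ N ∧ ¬ q ∣ M ∧ P.ModularRepOfLevel M := by
        by_cases hqp : q = P.p
        · subst hqp
          exact h44 hN hqN hirr hmod
        · exact h43 hN hq hq2 hqp hqN hirr hmod (h05 hq hq2 hqp)
      obtain ⟨M, hMN, hqM, hM⟩ := key
      have hMpos : 0 < M := Nat.pos_of_dvd_of_pos hMN hN.pos
      have hMlt : M < N := by
        rcases (Nat.le_of_dvd hN.pos hMN).lt_or_eq with h | h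
        · exact h
        · exact absurd (h ▸ hqN) hqM
      exact ih M hMlt (hN.of_dvd hMN hMpos) hM

/-- The wiring statement: S45 from S05, S06, S43, S44. -/
theorem level_two_of_steps (P : FreyPackage)
    (hirr : GaloisRepIsIrreducible (K := AlgebraicClosure ℚ) ℚ P.freyCurve P.p)
    (h05 : ∀ {q : ℕ}, q.Prime → q ≠ 2 → q ≠ P.p → P.GaloisRepUnramifiedAt q)
    (h06 : ∃ N : ℕ, P.IsConductorLevel N ∧ P.ModularRepOfLevel N)
    (h43 : ∀ {N q : ℕ}, P.IsConductorLevel N → q.Prime → q ≠ 2 → q ≠ P.p → q ∣ N →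
      GaloisRepIsIrreducible (K := AlgebraicClosure ℚ) ℚ P.freyCurve P.p →
      P.ModularRepOfLevel N → P.GaloisRepUnramifiedAt q →
      ∃ M : ℕ, M ∣ N ∧ ¬ q ∣ M ∧ P.ModularRepOfLevel M)
    (h44 : ∀ {N : ℕ}, P.IsConductorLevel N → P.p ∣ N →
      GaloisRepIsIrreducible (K := AlgebraicClosure ℚ) ℚ P.freyCurve P.p →
      P.ModularRepOfLevel N → ∃ M : ℕ, M ∣ N ∧ ¬ P.p ∣ M ∧ P.ModularRepOfLevel M) :
    ∃ f : CuspForm (CongruenceSubgroup.Gamma0 2) 2, f ≠ 0 := by
  obtain ⟨N, hN, hmod⟩ := h06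
  obtain ⟨M, hM, f, -, -, hf, -⟩ := descend P hirr h05 h43 h44 N hN hmod
  rcases hM with rfl | rfl
  · exact ⟨cuspFormRestrict gamma0_two_le_gamma0_one f,
      cuspFormRestrict_ne_zero _ f hf.ne_zero⟩
  · exact ⟨f, hf.ne_zero⟩

end Fermat.Agent.S45.helper45
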